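import Fermat.Agent.S40x.C2.DlogHecke
import Fermat.Agent.Gateway.GoodRed.GaussRing

/-!
# P-S44, block C2, leaf (KH-a), independent SECOND (helper10): Gauss units and the abstract
`dlog`-Hecke eigen-relation

`A` a valuation subring of `L`, `π : A →+* k` onto; `gaussRing A π ⊆ L((q))`, `gaussRed` its
reduction to `k((q))` (`Gateway/Red/Defs`).

* `gred A π y` : the reduction as a TOTAL function (`0` outside the Gauss ring);
  `IsGU A π y` : `y` is a Gauss unit (`y` in the Gauss ring with nonzero reduction) - the same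
  notion as `y, y⁻¹` in the Gauss ring, `y ≠ 0` (`isGU_iff_inv`);
* closure of Gauss units under products, inverses, integral powers, `q ↦ q^d`, twists by units of
  `A`, finite products, and multiplicativity of `gred` on them;
* `isGU_C`, `gred_C` : a constant which is a Gauss unit lies in `A` and reduces to a nonzero constant;
* `heckeT_dlog_of_norm` : **the abstract step**.  If `G = c F^a H^p` with `F`, `H` Gauss units,
  `c ≠ 0` a constant, `p = char k`, and `G(q^ℓ) = F(q^{ℓ²}) ∏_{b<ℓ} F(ζ^b q)` (the landed norm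
  formula `Kummer.NormQExpFormula`), `ζ ∈ Aˣ` with primitive reduction, `ℓ ≠ 0` in `k`, then
  `T_ℓ (dlog F̄) = a • dlog F̄` for the weight-2 operator `DlogHecke.heckeT`.
-/

set_option autoImplicit false
set_option linter.unusedSectionVars false
set_option linter.style.haveILetI false

noncomputable section

namespace Fermat.Agent.S40x.C2.KH2.CoreB

open ModularCurve HahnSeries
open Fermat.Agent.Gateway.Red Fermat.Agent.Gateway.GoodRed.GaussRing
open Fermat.Agent.S40x.C2.DlogHecke

variable {L : Type*} [Field L] (A : ValuationSubring L) {k : Type*} [Field k] (π : A →+* k)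

/-! ### The total reduction and Gauss units -/

open Classical in
/-- the reduction of the Gauss ring as a total function. -/
def gred (y : LaurentSeries L) : LaurentSeries k :=
  if hy : y ∈ gaussRing A π then gaussRed A π ⟨y, hy⟩ else 0

/-- `y` is a Gauss unit: it lies in the Gauss ring and has nonzero reduction. -/
def IsGU (y : LaurentSeries L) : Prop := ∃ hy : y ∈ gaussRing A π, gaussRed A π ⟨y, hy⟩ ≠ 0

variable {A π}

theorem gred_eq {y : LaurentSeries L} (hy : y ∈ gaussRing A π) :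
    gred A π y = gaussRed A π ⟨y, hy⟩ := dif_pos hy

theorem IsGU.mem {y : LaurentSeries L} (h : IsGU A π y) : y ∈ gaussRing A π := h.1

theorem IsGU.gred_ne_zero {y : LaurentSeries L} (h : IsGU A π y) : gred A π y ≠ 0 := by
  obtain ⟨hy, hne⟩ := h
  rwa [gred_eq hy]

theorem isGU_of_gred_ne_zero {y : LaurentSeries L} (h : gred A π y ≠ 0) : IsGU A π y := by
  by_cases hy : y ∈ gaussRing A π
  · exact ⟨hy, by rwa [gred_eq hy] at h⟩
  · exact absurd (dif_neg hy) h

theorem gred_one : gred A π (1 : LaurentSeries L) = 1 := by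
  rw [gred_eq (gaussRing A π).one_mem]
  exact map_one (gaussRed A π)

theorem gred_mul {y z : LaurentSeries L} (hy : y ∈ gaussRing A π) (hz : z ∈ gaussRing A π) :
    gred A π (y * z) = gred A π y * gred A π z := by
  rw [gred_eq hy, gred_eq hz, gred_eq ((gaussRing A π).mul_mem hy hz), ← map_mul]
  rfl

theorem IsGU.ne_zero {y : LaurentSeries L} (h : IsGU A π y) : y ≠ 0 := by
  rintro rfl
  obtain ⟨hy, hne⟩ := h
  exact hne (map_zero (gaussRed A π))

theorem IsGU.inv_mem {y : LaurentSeries L} (h : IsGU A π y) : y⁻¹ ∈ gaussRing A π :=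
  inv_mem_gaussRing A π h.1 h.2

/-- Gauss units are the units of the Gauss ring. -/
theorem isGU_iff_inv {y : LaurentSeries L} :
    IsGU A π y ↔ y ∈ gaussRing A π ∧ y⁻¹ ∈ gaussRing A π ∧ y ≠ 0 := by
  constructor
  · exact fun h => ⟨h.mem, h.inv_mem, h.ne_zero⟩
  · rintro ⟨hy, hyi, hy0⟩
    apply isGU_of_gred_ne_zero
    intro h0
    have h1 := gred_mul (A := A) (π := π) hy hyi
    rw [mul_inv_cancel₀ hy0, gred_one, h0, zero_mul] at h1
    exact one_ne_zero h1

theorem isGU_one : IsGU A π (1 : LaurentSeries L) :=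
  isGU_of_gred_ne_zero (by rw [gred_one]; exact one_ne_zero)

theorem IsGU.mul {y z : LaurentSeries L} (hy : IsGU A π y) (hz : IsGU A π z) :
    IsGU A π (y * z) :=
  isGU_of_gred_ne_zero (by
    rw [gred_mul hy.mem hz.mem]
    exact mul_ne_zero hy.gred_ne_zero hz.gred_ne_zero)

theorem IsGU.inv {y : LaurentSeries L} (hy : IsGU A π y) : IsGU A π y⁻¹ :=
  isGU_iff_inv.2 ⟨hy.inv_mem, by rw [inv_inv]; exact hy.mem, inv_ne_zero hy.ne_zero⟩

theorem gred_inv {y : LaurentSeries L} (hy : IsGU A π y) : gred A π y⁻¹ = (gred A π y)⁻¹ := by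
  have h1 := gred_mul (A := A) (π := π) hy.mem hy.inv_mem
  rw [mul_inv_cancel₀ hy.ne_zero, gred_one] at h1
  exact (eq_inv_of_mul_eq_one_right h1.symm)

theorem IsGU.pow {y : LaurentSeries L} (hy : IsGU A π y) (n : ℕ) : IsGU A π (y ^ n) := by
  induction n with
  | zero => rw [pow_zero]; exact isGU_one
  | succ n ih => rw [pow_succ]; exact ih.mul hy

theorem gred_pow {y : LaurentSeries L} (hy : IsGU A π y) (n : ℕ) :
    gred A π (y ^ n) = gred A π y ^ n := by
  induction n with
  | zero => rw [pow_zero, pow_zero, gred_one]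
  | succ n ih => rw [pow_succ, pow_succ, gred_mul (hy.pow n).mem hy.mem, ih]

theorem IsGU.zpow {y : LaurentSeries L} (hy : IsGU A π y) (a : ℤ) : IsGU A π (y ^ a) := by
  cases a with
  | ofNat n => rw [Int.ofNat_eq_natCast, zpow_natCast]; exact hy.pow n
  | negSucc n => rw [zpow_negSucc]; exact (hy.pow (n + 1)).inv

theorem gred_zpow {y : LaurentSeries L} (hy : IsGU A π y) (a : ℤ) :
    gred A π (y ^ a) = gred A π y ^ a := by
  cases a with
  | ofNat n => rw [Int.ofNat_eq_natCast, zpow_natCast, zpow_natCast, gred_pow hy]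
  | negSucc n => rw [zpow_negSucc, zpow_negSucc, gred_inv (hy.pow (n + 1)), gred_pow hy]

theorem IsGU.prod {ι : Type*} (s : Finset ι) {f : ι → LaurentSeries L}
    (hf : ∀ i ∈ s, IsGU A π (f i)) : IsGU A π (∏ i ∈ s, f i) := by
  classical
  induction s using Finset.induction_on with
  | empty => rw [Finset.prod_empty]; exact isGU_one
  | insert a s ha ih =>
    rw [Finset.prod_insert ha]
    exact (hf a (Finset.mem_insert_self a s)).mul
      (ih fun i hi => hf i (Finset.mem_insert_of_mem hi))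

theorem gred_prod {ι : Type*} (s : Finset ι) {f : ι → LaurentSeries L}
    (hf : ∀ i ∈ s, IsGU A π (f i)) :
    gred A π (∏ i ∈ s, f i) = ∏ i ∈ s, gred A π (f i) := by
  classical
  induction s using Finset.induction_on with
  | empty => rw [Finset.prod_empty, Finset.prod_empty, gred_one]
  | insert a s ha ih =>
    rw [Finset.prod_insert ha, Finset.prod_insert ha,
      gred_mul (hf a (Finset.mem_insert_self a s)).mem
        (IsGU.prod s fun i hi => hf i (Finset.mem_insert_of_mem hi)).mem,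
      ih fun i hi => hf i (Finset.mem_insert_of_mem hi)]

/-! ### `q ↦ q^d` and twists -/

theorem gred_qExpand (d : ℕ) [NeZero d] {y : LaurentSeries L} (hy : y ∈ gaussRing A π) :
    gred A π (qExpand L d y) = qExpand k d (gred A π y) := by
  rw [gred_eq hy, gred_eq (qExpand_mem_gaussRing A π d hy), gaussRed_qExpand]

theorem IsGU.qExpand (d : ℕ) [NeZero d] {y : LaurentSeries L} (hy : IsGU A π y) :
    IsGU A π (ModularCurve.qExpand L d y) :=
  isGU_of_gred_ne_zero (by
    rw [gred_qExpand d hy.mem]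
    exact (map_ne_zero (ModularCurve.qExpand k d)).2 hy.gred_ne_zero)

/-- the two landed `twist`s agree. -/
theorem kummer_twist_eq {R : Type*} [CommRing R] (ζ : Rˣ) :
    Fermat.Agent.Gateway.Kummer.twist ζ = Fermat.Agent.S28.twist ζ := by
  refine RingHom.ext fun f => ?_
  ext n
  rw [Fermat.Agent.Gateway.Kummer.twist_coeff, Fermat.Agent.S28.twist_coeff]

theorem twist_mem (ζ : Aˣ) {y : LaurentSeries L} (hy : y ∈ gaussRing A π) :
    Fermat.Agent.Gateway.Kummer.twist (Units.map (A.subtype : A →* L) ζ) y ∈ gaussRing A π := by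
  rw [kummer_twist_eq]
  exact twist_mem_gaussRing A π ζ hy

theorem gred_twist (ζ : Aˣ) {y : LaurentSeries L} (hy : y ∈ gaussRing A π) :
    gred A π (Fermat.Agent.Gateway.Kummer.twist (Units.map (A.subtype : A →* L) ζ) y) =
      Fermat.Agent.Gateway.Kummer.twist (Units.map (π : A →* k) ζ) (gred A π y) := by
  rw [gred_eq hy, gred_eq (twist_mem ζ hy), kummer_twist_eq (Units.map (π : A →* k) ζ),
    ← gaussRed_twist A π ζ hy]
  congr 1

theorem IsGU.twist (ζ : Aˣ) {y : LaurentSeries L} (hy : IsGU A π y) :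
    IsGU A π (Fermat.Agent.Gateway.Kummer.twist (Units.map (A.subtype : A →* L) ζ) y) :=
  isGU_of_gred_ne_zero (by
    rw [gred_twist ζ hy.mem]
    exact (map_ne_zero _).2 hy.gred_ne_zero)

/-! ### Constants -/

/-- a constant Gauss unit lies in `A` and reduces to a nonzero constant. -/
theorem exists_gred_C (hπ : Function.Surjective π) {c : L}
    (hc : IsGU A π (HahnSeries.C c : LaurentSeries L)) :
    ∃ c₀ : k, c₀ ≠ 0 ∧ gred A π (HahnSeries.C c : LaurentSeries L) = HahnSeries.C c₀ := by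
  have hcA : c ∈ A := (C_mem_gaussRing_iff A π hπ c).1 hc.mem
  have h1 : gred A π (HahnSeries.C c : LaurentSeries L) = HahnSeries.C (π ⟨c, hcA⟩) := by
    rw [gred_eq hc.mem]
    exact gaussRed_C A π ⟨c, hcA⟩
  refine ⟨π ⟨c, hcA⟩, ?_, h1⟩
  intro h0
  apply hc.gred_ne_zero
  rw [h1, h0, map_zero]

/-! ### `dlog` of integral powers -/

section Dlog

variable {κ : Type*} [Field κ]

theorem dlog_inv {f : LaurentSeries κ} (hf : f ≠ 0) : dlog f⁻¹ = -dlog f := by
  have h := dlog_mul hf (inv_ne_zero hf)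
  rw [mul_inv_cancel₀ hf, dlog_one] at h
  exact eq_neg_of_add_eq_zero_right h.symm

theorem dlog_pow {f : LaurentSeries κ} (hf : f ≠ 0) (n : ℕ) :
    dlog (f ^ n) = (n : LaurentSeries κ) * dlog f := by
  induction n with
  | zero => rw [pow_zero, dlog_one, Nat.cast_zero, zero_mul]
  | succ n ih =>
    rw [pow_succ, dlog_mul (pow_ne_zero n hf) hf, ih]
    push_cast
    ring

theorem dlog_zpow {f : LaurentSeries κ} (hf : f ≠ 0) (a : ℤ) :
    dlog (f ^ a) = (a : LaurentSeries κ) * dlog f := by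
  cases a with
  | ofNat n =>
    rw [Int.ofNat_eq_natCast, zpow_natCast, dlog_pow hf, Int.cast_natCast]
  | negSucc n =>
    rw [zpow_negSucc, dlog_inv (pow_ne_zero _ hf), dlog_pow hf, Int.cast_negSucc]
    ring

end Dlog

/-! ### The abstract step -/

/-- **(KH-a), abstract step.**  `F`, `H` Gauss units, `G = c F^a H^p` (`p = char k`), and the norm
formula `G(q^ℓ) = F(q^{ℓ²}) ∏_{b<ℓ} F(ζ^b q)` with `ζ ∈ Aˣ` of primitive reduction, `ℓ ≠ 0` in `k`:
then `T_ℓ (dlog F̄) = a • dlog F̄`. -/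
theorem heckeT_dlog_of_norm (hπ : Function.Surjective π) (p : ℕ) [CharP k p] {ℓ : ℕ} [NeZero ℓ]
    (hℓk : (ℓ : k) ≠ 0) (ζ : Aˣ) (hζk : IsPrimitiveRoot (Units.map (π : A →* k) ζ) ℓ)
    {F H G : LaurentSeries L} {c : L} {a : ℤ} (hF : IsGU A π F) (hH : IsGU A π H)
    (hG : G = HahnSeries.C c * F ^ a * H ^ p)
    (hN : qExpand L ℓ G = qExpand L (ℓ * ℓ) F *
      ∏ b ∈ Finset.range ℓ,
        Fermat.Agent.Gateway.Kummer.twist ((Units.map (A.subtype : A →* L) ζ) ^ b) F) :
    heckeT ℓ (dlog (gred A π F)) = (a : LaurentSeries k) * dlog (gred A π F) := by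
  have hQF : IsGU A π (qExpand L ℓ F) := hF.qExpand ℓ
  have hQH : IsGU A π (qExpand L ℓ H) := hH.qExpand ℓ
  have htw : ∀ b ∈ Finset.range ℓ, IsGU A π
      (Fermat.Agent.Gateway.Kummer.twist ((Units.map (A.subtype : A →* L) ζ) ^ b) F) := by
    intro b _
    rw [← map_pow]
    exact hF.twist (ζ ^ b)
  have hP : IsGU A π (∏ b ∈ Finset.range ℓ,
      Fermat.Agent.Gateway.Kummer.twist ((Units.map (A.subtype : A →* L) ζ) ^ b) F) :=
    IsGU.prod _ htw
  have hQ2 : IsGU A π (qExpand L (ℓ * ℓ) F) := hF.qExpand (ℓ * ℓ)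
  have hR := hQ2.mul hP
  have hQG : qExpand L ℓ G =
      HahnSeries.C c * qExpand L ℓ F ^ a * qExpand L ℓ H ^ p := by
    rw [hG, map_mul, map_mul, map_zpow₀, map_pow, qExpand_C]
  have hza := (hQF.zpow a).ne_zero
  have hpp := (hQH.pow p).ne_zero
  have hCc : (HahnSeries.C c : LaurentSeries L) =
      qExpand L (ℓ * ℓ) F * (∏ b ∈ Finset.range ℓ,
        Fermat.Agent.Gateway.Kummer.twist ((Units.map (A.subtype : A →* L) ζ) ^ b) F) *
        (qExpand L ℓ F ^ a)⁻¹ * (qExpand L ℓ H ^ p)⁻¹ := by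
    rw [← hN, hQG]
    field_simp
  have hC : IsGU A π (HahnSeries.C c : LaurentSeries L) := by
    rw [hCc]
    exact (hR.mul (hQF.zpow a).inv).mul (hQH.pow p).inv
  obtain ⟨c₀, hc₀, hgc⟩ := exists_gred_C hπ hC
  -- the reduced identity
  have hred := congrArg (gred A π) (hQG.symm.trans hN)
  rw [gred_mul (hC.mul (hQF.zpow a)).mem (hQH.pow p).mem, gred_mul hC.mem (hQF.zpow a).mem,
    gred_zpow hQF, gred_pow hQH, gred_qExpand ℓ hF.mem, gred_qExpand ℓ hH.mem, hgc,
    gred_mul hQ2.mem hP.mem, gred_qExpand (ℓ * ℓ) hF.mem, gred_prod _ htw] at hred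
  have htw' : ∀ b ∈ Finset.range ℓ,
      gred A π (Fermat.Agent.Gateway.Kummer.twist ((Units.map (A.subtype : A →* L) ζ) ^ b) F) =
        Fermat.Agent.Gateway.Kummer.twist ((Units.map (π : A →* k) ζ) ^ b) (gred A π F) := by
    intro b _
    rw [← map_pow, gred_twist (ζ ^ b) hF.mem, map_pow]
  rw [Finset.prod_congr rfl htw'] at hred
  have hFb : gred A π F ≠ 0 := hF.gred_ne_zero
  have hHb : gred A π H ≠ 0 := hH.gred_ne_zero
  have hnorm : qExpand k ℓ (HahnSeries.C c₀ * gred A π F ^ a * gred A π H ^ p) =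
      qExpand k ℓ (qExpand k ℓ (gred A π F)) *
        ∏ b ∈ Finset.range ℓ,
          Fermat.Agent.Gateway.Kummer.twist ((Units.map (π : A →* k) ζ) ^ b) (gred A π F) := by
    rw [map_mul, map_mul, map_zpow₀, map_pow, qExpand_C, hred, qExpand_qExpand]
  have h1 := dlog_of_norm_formula hℓk hζk hFb hnorm
  rw [← h1, mul_assoc, dlog_C_mul c₀ hc₀ (mul_ne_zero (zpow_ne_zero a hFb) (pow_ne_zero p hHb)),
    dlog_mul (zpow_ne_zero a hFb) (pow_ne_zero p hHb), dlog_zpow hFb, dlog_pow_char, add_zero]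

end Fermat.Agent.S40x.C2.KH2.CoreB

end
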