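import Fermat.Agent.Gateway.Kummer.HeckeRed
import Fermat.Agent.Gateway.Hecke.Inputs
import Fermat.Agent.Gateway.BaseChange.Modular

/-!
# P-S44, block C2, leaf (KH-a), independent SECOND (helper10): the Kummer step of the formal Hecke
eigen-relation

`IsKummerRep m x u` (`Gateway/Kummer/Basic`): `x = [D]`, `m D = div u`.

* `isKummerRep_zpow` : `u ^ a` represents `a • x` (`a : ℤ`);
* `exists_eq_const_mul_pow` : two Kummer representatives `u`, `v` of the SAME class at the same
  exponent `m` satisfy `u = c * v * h ^ m` with a constant `c ≠ 0` and a function `h ≠ 0`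
  (hypothesis `hconst`: a function without zeros and poles is constant);
* `exists_eq_const_mul_zpow_mul_pow` : if `u` represents `x`, `w` represents `y` and `y = a • x`
  then `w = c * u ^ a * h ^ m`;
* `exists_heckeFun_eq` : **the Kummer step**: over an algebraically closed `L ⊇ ℚ`, at any level `N`
  and any `ℓ`, if `T_ℓ x = a • x` in `Pic⁰` and `f` is a Kummer representative of `x` at exponent
  `m` then `heckeFun f = N_α (β f) = c * f ^ a * h ^ m`.
-/

set_option autoImplicit false
set_option linter.unusedSectionVars false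
set_option linter.style.haveILetI false

noncomputable section

namespace Fermat.Agent.S40x.C2.KH2

open AlgebraicCurve ModularCurve
open Fermat.Agent.Gateway.Kummer

section Abstract

variable {K F : Type*} [Field K] [Field F] [Algebra K F]

/-- integral powers of Kummer representatives -/
theorem isKummerRep_zpow {m : ℕ} {x : Pic0 K F} {u : F} (hx : IsKummerRep m x u) (a : ℤ) :
    IsKummerRep m (a • x) (u ^ a) := by
  cases a with
  | ofNat n =>
    rw [Int.ofNat_eq_natCast, natCast_zsmul, zpow_natCast]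
    exact hx.pow n
  | negSucc n =>
    rw [negSucc_zsmul, zpow_negSucc]
    exact (hx.pow (n + 1)).inv

/-- **Two Kummer representatives of the same class** at the same exponent `m` differ by a
nonzero constant and an `m`-th power. -/
theorem exists_eq_const_mul_pow
    (hconst : ∀ z : F, z ≠ 0 → (∀ P : Place K F, P.ord z = 0) → ∃ c : K, z = algebraMap K F c)
    {m : ℕ} {x : Pic0 K F} {u v : F} (hu : IsKummerRep m x u) (hv : IsKummerRep m x v) :
    ∃ (c : K) (h : F), c ≠ 0 ∧ h ≠ 0 ∧ u = algebraMap K F c * v * h ^ m := by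
  obtain ⟨hu0, D, hD, hDu⟩ := hu
  obtain ⟨hv0, E, hE, hEv⟩ := hv
  have h1 : Pic0.mk (D - E) = 0 := by
    have : Pic0.mk (D - E) = Pic0.mk D - Pic0.mk E := rfl
    rw [this, hD, hE, sub_self]
  rw [mk_eq_zero_iff] at h1
  obtain ⟨h, hh0, hDh⟩ := h1
  have hhm : h ^ m ≠ 0 := pow_ne_zero _ hh0
  have hden : v * h ^ m ≠ 0 := mul_ne_zero hv0 hhm
  have hz0 : u / (v * h ^ m) ≠ 0 := div_ne_zero hu0 hden
  have hzord : ∀ P : Place K F, P.ord (u / (v * h ^ m)) = 0 := by
    intro P
    have h2 : ((D - E : Divisor.degZero (K := K) (F := F)) : Divisor K F) P = P.ord h := hDh P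
    have h3 : ((D - E : Divisor.degZero (K := K) (F := F)) : Divisor K F) P
        = (D : Divisor K F) P - (E : Divisor K F) P := by
      simp
    rw [div_eq_mul_inv, P.ord_mul hu0 (inv_ne_zero hden), P.ord_inv, P.ord_mul hv0 hhm,
      ← zpow_natCast, P.ord_zpow, ← hDu P, ← hEv P, ← h2, h3]
    ring
  obtain ⟨c, hc⟩ := hconst _ hz0 hzord
  have hc0 : c ≠ 0 := by
    rintro rfl
    rw [map_zero] at hc
    exact hz0 hc
  refine ⟨c, h, hc0, hh0, ?_⟩
  rw [mul_assoc, ← hc, div_mul_cancel₀ _ hden]

/-- if `u` represents `x` and `w` represents `a • x` then `w = c * u ^ a * h ^ m`. -/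
theorem exists_eq_const_mul_zpow_mul_pow
    (hconst : ∀ z : F, z ≠ 0 → (∀ P : Place K F, P.ord z = 0) → ∃ c : K, z = algebraMap K F c)
    {m : ℕ} {x y : Pic0 K F} {a : ℤ} (hxy : y = a • x) {u w : F}
    (hu : IsKummerRep m x u) (hw : IsKummerRep m y w) :
    ∃ (c : K) (h : F), c ≠ 0 ∧ h ≠ 0 ∧ w = algebraMap K F c * u ^ a * h ^ m := by
  subst hxy
  exact exists_eq_const_mul_pow hconst hw (isKummerRep_zpow hu a)

end Abstract

section Modular

variable {L : Type} [Field L] [Algebra ℚ L] [IsAlgClosed L] (N ℓ : ℕ) [NeZero N] [NeZero ℓ]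

/-- **(KH-a), the Kummer step**: if `T_ℓ x = a • x` and `f` is a Kummer representative of `x` at
exponent `m`, then `N_α (β f) = c * f ^ a * h ^ m` with `c ≠ 0` constant and `h ≠ 0`. -/
theorem exists_heckeFun_eq {m : ℕ} {x : Pic0 L (FF L N)} {a : ℤ}
    (hx : heckeOperatorAlong L N ℓ x = a • x) {f : FF L N} (hf : IsKummerRep m x f) :
    ∃ (c : L) (h : FF L N), c ≠ 0 ∧ h ≠ 0 ∧
      heckeFun L N ℓ f = algebraMap L (FF L N) c * f ^ a * h ^ m := by
  haveI : CharZero L := Fermat.Agent.Gateway.Hecke.charZero_of_ratAlgebra L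
  have h1 : IsKummerRep m (heckeOperatorAlong L N ℓ x) (heckeFun L N ℓ f) :=
    isKummerRep_heckeOperatorAlong L N ℓ (Fermat.Agent.Gateway.Hecke.heckeInputsAlong L N ℓ) hf
  exact exists_eq_const_mul_zpow_mul_pow
    (fun z hz0 hz => Fermat.Agent.Gateway.BaseChange.Modular.const_of_ord_eq_zero_FL L N z hz0 hz)
    hx hf h1

end Modular

end Fermat.Agent.S40x.C2.KH2

end
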