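import Fermat.Agent.S40x.C2.KH2.KummerHeckeB
import Fermat.Agent.S40x.C2.KH2.CoreB
import Fermat.Agent.Gateway.ESC.NormQExp

/-!
# P-S44, block C2, leaf (KH-a), independent SECOND (helper10): the formal Hecke eigen-relation for
the logarithmic derivative of a reduced Kummer function

`L` algebraically closed over `ℚ`, `A` a valuation subring of `L` with residue map `π : A → k` onto,
`p = char k`, `N` any level, `ℓ` a prime with `ℓ ≠ 0` in `k`.

* `exists_unit_primitiveRoot` : a primitive `ℓ`-th root of unity `ζ ∈ Aˣ` whose reduction is still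
  primitive;
* `heckeT_dlog_of_eigen` : **the leaf (KH-a)**.  If `T_ℓ x = a • x` in `Pic⁰(X_0(N)_L)`, `f` is a
  Kummer representative of `x` at exponent `p` which is a Gauss unit, then
  `T_ℓ (dlog f̄) = a • dlog f̄` for the weight-2 formal Hecke operator `DlogHecke.heckeT ℓ` on
  `k((q))` (`f̄ = gred A π f`).  Hypotheses: the norm formula (C1) `hC1` and the scaling `hscal`
  (every nonzero function has a constant multiple which is a Gauss unit).
* `heckeT_dlog_of_eigen_Qbar` : over `Qbar`, (C1) is the landed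
  `ESC.normQExpFormula_algebraicClosure` (`ℓ ∤ N`).
-/

set_option autoImplicit false
set_option linter.unusedSectionVars false
set_option linter.style.haveILetI false

noncomputable section

namespace Fermat.Agent.S40x.C2.KH2.MainB

open AlgebraicCurve ModularCurve HahnSeries
open Fermat.Agent.Gateway.Kummer Fermat.Agent.Gateway.Red
open Fermat.Agent.S40x.C2.DlogHecke Fermat.Agent.S40x.C2.KH2 Fermat.Agent.S40x.C2.KH2.CoreB

/-! ### Roots of unity in `A` -/

section Roots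

variable {L : Type*} [Field L] (A : ValuationSubring L) {k : Type*} [Field k] (π : A →+* k)

/-- a root of unity of `L` lies in every valuation subring. -/
theorem mem_of_pow_eq_one {ζ : L} {n : ℕ} (hn : n ≠ 0) (hζ : ζ ^ n = 1) : ζ ∈ A := by
  rcases A.mem_or_inv_mem ζ with h | h
  · exact h
  · have h1 : ζ = ζ⁻¹ ^ (n - 1) := by
      obtain ⟨m, rfl⟩ := Nat.exists_eq_succ_of_ne_zero hn
      rw [Nat.succ_sub_one, inv_pow]
      rw [pow_succ] at hζ
      exact eq_inv_of_mul_eq_one_right hζ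
    rw [h1]
    exact A.pow_mem h _

theorem eval_cyclotomic_map {R S : Type*} [CommRing R] [CommRing S] (g : R →+* S) (n : ℕ)
    (r : R) : (Polynomial.cyclotomic n S).eval (g r) = g ((Polynomial.cyclotomic n R).eval r) := by
  rw [← Polynomial.map_cyclotomic n g, Polynomial.eval_map, Polynomial.eval₂_at_apply]

/-- **a primitive `ℓ`-th root of unity in `Aˣ` with primitive reduction** (`ℓ ≠ 0` in `k`). -/
theorem exists_unit_primitiveRoot [IsAlgClosed L] [CharZero L] (ℓ : ℕ) [NeZero ℓ]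
    (hℓk : (ℓ : k) ≠ 0) :
    ∃ ζ : Aˣ, IsPrimitiveRoot (Units.map (A.subtype : A →* L) ζ) ℓ ∧
      IsPrimitiveRoot (Units.map (π : A →* k) ζ) ℓ := by
  haveI : NeZero ((ℓ : ℕ) : L) := ⟨by exact_mod_cast NeZero.ne ℓ⟩
  haveI : NeZero ((ℓ : ℕ) : k) := ⟨hℓk⟩
  obtain ⟨ζ₀, hζ₀⟩ := HasEnoughRootsOfUnity.exists_primitiveRoot L ℓ
  have hℓ0 : ℓ ≠ 0 := NeZero.ne ℓ
  have hmem : ζ₀ ∈ A := mem_of_pow_eq_one A hℓ0 hζ₀.pow_eq_one
  have hmem' : ζ₀ ^ (ℓ - 1) ∈ A := A.pow_mem hmem _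
  have hmul : (⟨ζ₀, hmem⟩ : A) * ⟨ζ₀ ^ (ℓ - 1), hmem'⟩ = 1 := by
    apply Subtype.ext
    show ζ₀ * ζ₀ ^ (ℓ - 1) = 1
    rw [← pow_succ', Nat.sub_add_cancel (Nat.one_le_iff_ne_zero.2 hℓ0), hζ₀.pow_eq_one]
  set ζ : Aˣ := ⟨⟨ζ₀, hmem⟩, ⟨ζ₀ ^ (ℓ - 1), hmem'⟩, hmul, by rw [mul_comm]; exact hmul⟩ with hζ
  have hcoe : ((Units.map (A.subtype : A →* L) ζ : Lˣ) : L) = ζ₀ := rfl
  have h1 : IsPrimitiveRoot (Units.map (A.subtype : A →* L) ζ) ℓ := by
    rw [← IsPrimitiveRoot.coe_units_iff, hcoe]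
    exact hζ₀
  refine ⟨ζ, h1, ?_⟩
  -- the reduction is a root of the cyclotomic polynomial
  have hroot : (Polynomial.cyclotomic ℓ L).IsRoot ζ₀ :=
    (Polynomial.isRoot_cyclotomic_iff).2 hζ₀
  have hA : (Polynomial.cyclotomic ℓ A).eval (ζ : A) = 0 := by
    apply Subtype.val_injective
    have h2 := eval_cyclotomic_map A.subtype ℓ (ζ : A)
    have h3 : (Polynomial.cyclotomic ℓ L).eval ζ₀ = 0 := hroot
    exact h2.symm.trans h3
  have hk : (Polynomial.cyclotomic ℓ k).IsRoot (π (ζ : A)) := by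
    have h3 := eval_cyclotomic_map π ℓ (ζ : A)
    rw [hA, map_zero] at h3
    exact h3
  rw [← IsPrimitiveRoot.coe_units_iff]
  exact (Polynomial.isRoot_cyclotomic_iff).1 hk

end Roots

/-! ### The leaf -/

section Leaf

variable {L : Type} [Field L] [Algebra ℚ L] [IsAlgClosed L] (A : ValuationSubring L)
  {k : Type*} [Field k] (π : A →+* k)

/-- **(KH-a)**: the formal Hecke eigen-relation for `dlog` of the reduced Kummer function. -/
theorem heckeT_dlog_of_eigen (hπ : Function.Surjective π) (p : ℕ) [CharP k p]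
    (N ℓ : ℕ) [NeZero N] [NeZero ℓ] (hℓk : (ℓ : k) ≠ 0)
    (hC1 : ∀ ζ : Lˣ, IsPrimitiveRoot ζ ℓ → NormQExpFormula L N ℓ ζ)
    (hscal : ∀ h : FF L N, h ≠ 0 →
      ∃ d : L, d ≠ 0 ∧ IsGU A π (HahnSeries.C d * (h : LaurentSeries L)))
    {x : Pic0 L (FF L N)} {a : ℤ} (hx : heckeOperatorAlong L N ℓ x = a • x)
    {f : FF L N} (hf : IsKummerRep p x f) (hfU : IsGU A π (f : LaurentSeries L)) :
    heckeT ℓ (dlog (gred A π (f : LaurentSeries L))) =
      (a : LaurentSeries k) * dlog (gred A π (f : LaurentSeries L)) := by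
  haveI : CharZero L := Fermat.Agent.Gateway.Hecke.charZero_of_ratAlgebra L
  obtain ⟨c, h, hc, hh, hHF⟩ := exists_heckeFun_eq N ℓ hx hf
  obtain ⟨d, hd, hH⟩ := hscal h hh
  obtain ⟨ζ, hζL, hζk⟩ := exists_unit_primitiveRoot A π ℓ hℓk
  have hN := hC1 _ hζL f
  have hdp : d ^ p ≠ 0 := pow_ne_zero p hd
  have hG : ((heckeFun L N ℓ f : FF L N) : LaurentSeries L) =
      HahnSeries.C (c * (d ^ p)⁻¹) * (f : LaurentSeries L) ^ a *
        (HahnSeries.C d * (h : LaurentSeries L)) ^ p := by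
    rw [hHF]
    have h1 : ((algebraMap L (FF L N) c * f ^ a * h ^ p : FF L N) : LaurentSeries L) =
        HahnSeries.C c * (f : LaurentSeries L) ^ a * (h : LaurentSeries L) ^ p := by
      rw [← LaurentSeries.algebraMap_apply]
      rfl
    rw [h1, mul_pow, ← map_pow, map_mul]
    have h2 : (HahnSeries.C (d ^ p)⁻¹ : LaurentSeries L) * HahnSeries.C (d ^ p) = 1 := by
      rw [← map_mul, inv_mul_cancel₀ hdp, map_one]
    calc HahnSeries.C c * (f : LaurentSeries L) ^ a * (h : LaurentSeries L) ^ p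
        = HahnSeries.C c * (f : LaurentSeries L) ^ a * (h : LaurentSeries L) ^ p *
            ((HahnSeries.C (d ^ p)⁻¹ : LaurentSeries L) * HahnSeries.C (d ^ p)) := by
          rw [h2, mul_one]
      _ = _ := by ring
  exact heckeT_dlog_of_norm hπ p hℓk ζ hζk hfU hH hG hN

end Leaf

/-! ### Over `Qbar` -/

section OverQbar

local notation "Qbar" => AlgebraicClosure ℚ

variable (A : ValuationSubring Qbar) {k : Type*} [Field k] (π : A →+* k)

/-- **(KH-a) over `Qbar`**: (C1) is the landed norm formula, for a prime `ℓ ∤ N`. -/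
theorem heckeT_dlog_of_eigen_Qbar (hπ : Function.Surjective π) (p : ℕ) [CharP k p]
    (N ℓ : ℕ) [NeZero N] [NeZero ℓ] (hℓ : ℓ.Prime) (hℓN : ¬ ℓ ∣ N) (hℓk : (ℓ : k) ≠ 0)
    (hscal : ∀ h : FF Qbar N, h ≠ 0 →
      ∃ d : Qbar, d ≠ 0 ∧ IsGU A π (HahnSeries.C d * (h : LaurentSeries Qbar)))
    {x : Pic0 Qbar (FF Qbar N)} {a : ℤ} (hx : heckeOperatorAlong Qbar N ℓ x = a • x)
    {f : FF Qbar N} (hf : IsKummerRep p x f) (hfU : IsGU A π (f : LaurentSeries Qbar)) :
    heckeT ℓ (dlog (gred A π (f : LaurentSeries Qbar))) =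
      (a : LaurentSeries k) * dlog (gred A π (f : LaurentSeries Qbar)) :=
  heckeT_dlog_of_eigen A π hπ p N ℓ hℓk
    (fun ζ hζ => Fermat.Agent.Gateway.ESC.normQExpFormula_algebraicClosure N ℓ hℓ hℓN ζ hζ)
    hscal hx hf hfU

end OverQbar

end Fermat.Agent.S40x.C2.KH2.MainB

end
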