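import Fermat.Agent.S40x.C2.KH2.MainB
import Fermat.Agent.S34x.TwoVal.FundInst
import Fermat.Agent.S34x.Inst.RedSetupInst

/-!
# P-S44, block C2, leaf (KH-a), independent SECOND (helper10): the level `M q` form

`Qbar`, `P` a valuation subring with residue map `π : P → k` onto, residue characteristic `q ∤ M`,
`H : ResidueFacts P π M q …` (`S34x/Inst/RedSetupInst`), `v_∞ = valInfty` the Gauss valuation of the
function field of level `M q` at the cusp `∞`, `redV` its reduction to `k((q))`.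

* `gred_coe_eq_redV` : the total reduction `CoreB.gred` of a function in `Ov` is `redV`;
* `isGU_iff_valuation_eq_one` : Gauss unit `↔ v_∞ f = 1`;
* `exists_scal` : the scaling hypothesis `hscal` of `MainB.heckeT_dlog_of_eigen` from
  `ResidueFacts.scalV`;
* `heckeT_dlog_redV` : **(KH-a) at level `M q`**: `T_ℓ x = a • x`, `f` a Kummer representative of `x`
  at exponent `q` with `v_∞ f = 1`, `ℓ` a prime not dividing `M q`:
  `T_ℓ (dlog f̄) = a • dlog f̄` with `f̄ = redV f` (`heckeT_dlog_gred_Mq` : the same with `gred`).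
-/

set_option autoImplicit false
set_option linter.unusedSectionVars false
set_option linter.style.haveILetI false

noncomputable section

namespace Fermat.Agent.S40x.C2.KH2.MqB

open AlgebraicCurve ModularCurve HahnSeries IsLocalRing
open Fermat.Agent.Gateway.Hecke Fermat.Agent.Gateway.Kummer Fermat.Agent.Gateway.Red
open Fermat.Agent.S34x.TwoVal Fermat.Agent.S34x.Inst.RedSetupInst
open Fermat.Agent.S40x.C2.DlogHecke Fermat.Agent.S40x.C2.KH2.CoreB Fermat.Agent.S40x.C2.KH2.MainB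

section Gen

variable {L : Type*} [Field L] (A : ValuationSubring L) {k : Type*} [Field k] (π : A →+* k)
  (F : IntermediateField L (LaurentSeries L))

/-- the total reduction of a function of the Gauss ring of `F` is `redV`. -/
theorem gred_coe_eq_redV {f : F} (hf : f ∈ Ov A π F) :
    gred A π (f : LaurentSeries L) = redV A π F ⟨f, hf⟩ := by
  rw [redV_apply]
  exact gred_eq hf

theorem isGU_coe_iff {f : F} :
    IsGU A π (f : LaurentSeries L) ↔ ∃ hf : f ∈ Ov A π F, redV A π F ⟨f, hf⟩ ≠ 0 := by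
  constructor
  · rintro ⟨hf, hne⟩
    exact ⟨hf, by rw [redV_apply]; exact hne⟩
  · rintro ⟨hf, hne⟩
    exact ⟨hf, by rw [redV_apply] at hne; exact hne⟩

end Gen

section Mq

local notation "Qbar" => AlgebraicClosure ℚ

variable {P : ValuationSubring Qbar} {k : Type} [Field k] {π : P →+* k} [IsAlgClosed k]
variable {M q : ℕ} [NeZero M] [NeZero q] [Fact q.Prime] [CharP k q]
variable {hdeg : finrankAlong Qbar (heckeAlphaBar Qbar M q) = q + 1} {hq : q.Prime}
  {hqM : ¬ q ∣ M}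
variable {hrk : ∀ x ∈ maximalIdeal P, ∀ c : P, c ≠ 0 → ∃ j : ℕ, c ∣ x ^ j}
  {hπ : Function.Surjective π}

/-- Gauss unit `↔` unit of the Gauss valuation `v_∞`. -/
theorem isGU_iff_valuation_eq_one (f : FL Qbar (M * q)) :
    IsGU P π (f : LaurentSeries Qbar) ↔ (valInfty P π M q hrk hπ hqM).valuation f = 1 := by
  rw [valInfty_eq_one_iff]
  exact isGU_coe_iff P π (FL Qbar (M * q))

/-- the scaling hypothesis of `MainB.heckeT_dlog_of_eigen` at level `M q`. -/
theorem exists_scal (H : ResidueFacts P π M q hdeg hq hqM hrk hπ) (h : FL Qbar (M * q))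
    (hh : h ≠ 0) :
    ∃ d : Qbar, d ≠ 0 ∧ IsGU P π (HahnSeries.C d * (h : LaurentSeries Qbar)) := by
  obtain ⟨c, hc, hv⟩ := H.scalV h hh
  refine ⟨c, hc, ?_⟩
  have h1 := (isGU_iff_valuation_eq_one (hrk := hrk) (hπ := hπ) (hqM := hqM) (c • h)).2 hv
  have h2 : ((c • h : FL Qbar (M * q)) : LaurentSeries Qbar) =
      HahnSeries.C c * (h : LaurentSeries Qbar) := by
    rw [Algebra.smul_def, ← LaurentSeries.algebraMap_apply]
    rfl
  rwa [h2] at h1

/-- **(KH-a) at level `M q`**, `gred` form. -/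
theorem heckeT_dlog_gred_Mq (H : ResidueFacts P π M q hdeg hq hqM hrk hπ)
    (ℓ : ℕ) [NeZero ℓ] (hℓ : ℓ.Prime) (hℓN : ¬ ℓ ∣ M * q)
    {x : Pic0 Qbar (FL Qbar (M * q))} {a : ℤ} (hx : heckeOperatorAlong Qbar (M * q) ℓ x = a • x)
    {f : FL Qbar (M * q)} (hf : IsKummerRep q x f)
    (hfv : (valInfty P π M q hrk hπ hqM).valuation f = 1) :
    heckeT ℓ (dlog (gred P π (f : LaurentSeries Qbar))) =
      (a : LaurentSeries k) * dlog (gred P π (f : LaurentSeries Qbar)) := by
  have hℓq : ℓ ≠ q := by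
    rintro rfl
    exact hℓN (dvd_mul_left _ _)
  have hℓk : (ℓ : k) ≠ 0 := by
    intro h0
    have h1 : q ∣ ℓ := (CharP.cast_eq_zero_iff k q ℓ).1 h0
    have h2 := (Nat.prime_dvd_prime_iff_eq (Fact.out : q.Prime) hℓ).1 h1
    exact hℓq h2.symm
  exact heckeT_dlog_of_eigen_Qbar P π hπ q (M * q) ℓ hℓ hℓN hℓk
    (fun h hh => exists_scal H h hh) hx hf
    ((isGU_iff_valuation_eq_one (hrk := hrk) (hπ := hπ) (hqM := hqM) f).2 hfv)

/-- **(KH-a) at level `M q`**, `redV` form: `f̄ = redV f` satisfies `T_ℓ (dlog f̄) = a • dlog f̄`. -/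
theorem heckeT_dlog_redV (H : ResidueFacts P π M q hdeg hq hqM hrk hπ)
    (ℓ : ℕ) [NeZero ℓ] (hℓ : ℓ.Prime) (hℓN : ¬ ℓ ∣ M * q)
    {x : Pic0 Qbar (FL Qbar (M * q))} {a : ℤ} (hx : heckeOperatorAlong Qbar (M * q) ℓ x = a • x)
    {f : FL Qbar (M * q)} (hf : IsKummerRep q x f) (hfO : f ∈ Ov P π (FL Qbar (M * q)))
    (hfne : redV P π (FL Qbar (M * q)) ⟨f, hfO⟩ ≠ 0) :
    heckeT ℓ (dlog (redV P π (FL Qbar (M * q)) ⟨f, hfO⟩)) =
      (a : LaurentSeries k) * dlog (redV P π (FL Qbar (M * q)) ⟨f, hfO⟩) := by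
  have hfv : (valInfty P π M q hrk hπ hqM).valuation f = 1 :=
    (valInfty_eq_one_iff P π M q hqM hrk hπ f).2 ⟨hfO, hfne⟩
  have h := heckeT_dlog_gred_Mq H ℓ hℓ hℓN hx hf hfv
  rwa [gred_coe_eq_redV P π (FL Qbar (M * q)) hfO] at h

end Mq

end Fermat.Agent.S40x.C2.KH2.MqB

end
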